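import Fermat.Agent.CompactQuotient.Measure
import Fermat.Agent.GelfandRaikov.Regular
import Mathlib.MeasureTheory.Function.ContinuousMapDense
import Mathlib.Topology.ContinuousMap.Bounded.ArzelaAscoli
import Mathlib.Topology.MetricSpace.Equicontinuity
import Mathlib.Analysis.Normed.Operator.Compact.Basic

/-!
# Averaged translations on a compact quotient are compact

Translations act unitarily on `L²` of the invariant measure.  Averaged against a continuous function
with compact support they send the unit ball into a bounded equicontinuous set of continuous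
functions, so by Arzelà and Ascoli they are compact operators.
-/

set_option autoImplicit false
set_option linter.unusedSectionVars false
set_option linter.style.haveILetI false

noncomputable section

open MeasureTheory MeasureTheory.Measure Topology Set Filter
open scoped ComplexConjugate InnerProductSpace ENNReal Pointwise BoundedContinuousFunction

namespace FA.CompactQuotient

variable {G : Type*} [Group G] [TopologicalSpace G] [IsTopologicalGroup G] [T2Space G]
  [LocallyCompactSpace G] (Γ : Subgroup G) [DiscreteTopology Γ] [CompactSpace (G ⧸ Γ)]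
  [MeasurableSpace G] [BorelSpace G] [Countable Γ]

/-- `L²` of the quotient. -/
abbrev QuotL2 : Type _ := Lp ℂ 2 (quotMeasure Γ)

/-- Continuous functions in `L²` of the quotient. -/
abbrev embL2 : C(G ⧸ Γ, ℂ) →L[ℂ] QuotL2 Γ := ContinuousMap.toLp 2 (quotMeasure Γ) ℂ

/-- Translation of the quotient by an element. -/
def shiftMap (g : G) : C(G ⧸ Γ, G ⧸ Γ) := ⟨fun x => g • x, continuous_const_smul g⟩

theorem continuous_shiftMap : Continuous (shiftMap Γ) :=
  ContinuousMap.continuous_of_continuous_uncurry _ (continuous_fst.smul continuous_snd)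

/-- **The quasi-regular representation.** -/
def quasiRegular : G →* (QuotL2 Γ →L[ℂ] QuotL2 Γ) where
  toFun g := (Lp.compMeasurePreservingₗᵢ ℂ (g⁻¹ • · : G ⧸ Γ → G ⧸ Γ)
    (measurePreserving_smul g⁻¹ (quotMeasure Γ))).toContinuousLinearMap
  map_one' := by
    ext1 v
    refine Lp.ext ((Lp.coeFn_compMeasurePreserving v _).trans (.of_forall fun x => ?_))
    simp
  map_mul' g h := by
    ext1 v
    refine Lp.ext ?_
    refine (Lp.coeFn_compMeasurePreserving v _).trans (EventuallyEq.symm ?_)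
    refine (Lp.coeFn_compMeasurePreserving _ _).trans ?_
    refine ((measurePreserving_smul g⁻¹ (quotMeasure Γ)).quasiMeasurePreserving.ae
      (Lp.coeFn_compMeasurePreserving v
        (measurePreserving_smul h⁻¹ (quotMeasure Γ)))).mono fun x hx => ?_
    refine hx.trans ?_
    simp [mul_smul]

theorem quasiRegular_coe (g : G) (v : QuotL2 Γ) :
    quasiRegular Γ g v =ᵐ[quotMeasure Γ] fun x => v (g⁻¹ • x) :=
  Lp.coeFn_compMeasurePreserving v _

theorem norm_quasiRegular (g : G) (v : QuotL2 Γ) : ‖quasiRegular Γ g v‖ = ‖v‖ :=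
  Lp.norm_compMeasurePreserving v _

theorem continuous_quasiRegular (v : QuotL2 Γ) : Continuous fun g => quasiRegular Γ g v :=
  (continuous_const (y := v)).compMeasurePreservingLp
    ((continuous_shiftMap Γ).comp continuous_inv)
    (fun g => measurePreserving_smul g⁻¹ (quotMeasure Γ)) ENNReal.ofNat_ne_top

theorem quasiRegular_embL2 (g : G) (φ : C(G ⧸ Γ, ℂ)) :
    quasiRegular Γ g⁻¹ (embL2 Γ φ) = embL2 Γ (φ.comp (shiftMap Γ g)) := by
  refine Lp.ext ((quasiRegular_coe Γ g⁻¹ _).trans ?_)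
  refine EventuallyEq.trans ?_ (ContinuousMap.coeFn_toLp (quotMeasure Γ) _).symm
  simp only [inv_inv]
  exact ((measurePreserving_smul g (quotMeasure Γ)).quasiMeasurePreserving.ae
    (ContinuousMap.coeFn_toLp (quotMeasure Γ) φ)).mono fun x hx => hx

/-- The `L¹` norm is bounded by the `L²` norm. -/
theorem integral_norm_le_embL2 (φ : C(G ⧸ Γ, ℂ)) :
    ∫ x, ‖φ x‖ ∂quotMeasure Γ ≤ ‖embL2 Γ 1‖ * ‖embL2 Γ φ‖ := by
  set ψ : C(G ⧸ Γ, ℂ) := ⟨fun x => (‖φ x‖ : ℂ), by fun_prop⟩ with hψ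
  have hn : ‖embL2 Γ ψ‖ ≤ ‖embL2 Γ φ‖ := by
    refine Lp.norm_le_norm_of_ae_le ?_
    filter_upwards [ContinuousMap.coeFn_toLp (p := 2) (𝕜 := ℂ) (quotMeasure Γ) ψ,
      ContinuousMap.coeFn_toLp (p := 2) (𝕜 := ℂ) (quotMeasure Γ) φ] with x h1 h2
    rw [h1, h2, hψ, ContinuousMap.coe_mk, Complex.norm_real, norm_norm]
  have h := (norm_inner_le_norm (𝕜 := ℂ) (embL2 Γ 1) (embL2 Γ ψ)).trans
    (mul_le_mul_of_nonneg_left hn (norm_nonneg _))
  rw [ContinuousMap.inner_toLp] at h
  simp only [ContinuousMap.one_apply, map_one, mul_one, hψ, ContinuousMap.coe_mk,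
    integral_complex_ofReal] at h
  rwa [Complex.norm_real, Real.norm_of_nonneg (integral_nonneg fun x => norm_nonneg _)] at h

/-- **The orbit bound.** -/
theorem exists_orbit_bound {L : Set G} (hL : IsCompact L) :
    ∃ C, 0 ≤ C ∧ ∀ (w : G → ℂ) (δ : ℝ), (∀ g, ‖w g‖ ≤ δ) → (∀ g, g ∉ L → w g = 0) →
      ∀ (φ : C(G ⧸ Γ, ℂ)) (x : G ⧸ Γ),
        ‖∫ g, w g • φ (g • x) ∂(haar : Measure G)‖ ≤ δ * (C * ‖embL2 Γ φ‖) := by
  haveI := isMulRightInvariant_of_cocompact Γ
  have hL' : IsCompact (L * closure (domain Γ)) := hL.mul (isCompact_closure_domain Γ)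
  obtain ⟨N, hN⟩ := exists_map_restrict_le Γ hL'
  refine ⟨N * ‖embL2 Γ 1‖, by positivity, fun w δ hw hw0 φ x => ?_⟩
  have hδ : 0 ≤ δ := (norm_nonneg _).trans (hw 1)
  induction x using QuotientGroup.induction_on with
  | _ b =>
  obtain ⟨γ, hγ, -⟩ := existsUnique_domain Γ b
  rw [show (QuotientGroup.mk b : G ⧸ Γ) = QuotientGroup.mk (b * γ) from
    (QuotientGroup.mk_mul_of_mem b γ.2).symm]
  set a := b * (γ : G)
  have hψc : Continuous fun u : G => ‖φ (QuotientGroup.mk u)‖ :=
    (φ.continuous.comp (continuous_mk Γ)).norm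
  have hψi : Integrable ((L * closure (domain Γ)).indicator fun u => ‖φ (QuotientGroup.mk u)‖)
      (haar : Measure G) :=
    (integrable_indicator_iff hL'.measurableSet).2 (hψc.continuousOn.integrableOn_compact hL')
  refine (norm_integral_le_of_norm_le ((hψi.comp_mul_right a).const_mul δ)
    (.of_forall fun g => ?_)).trans ?_
  · by_cases hg : g ∈ L
    · rw [indicator_of_mem (mul_mem_mul hg (subset_closure hγ)), norm_smul]
      exact mul_le_mul_of_nonneg_right (hw g) (norm_nonneg _)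
    · rw [hw0 g hg, zero_smul, norm_zero]
      exact mul_nonneg hδ (indicator_nonneg (fun u _ => norm_nonneg _) _)
  rw [integral_const_mul]
  refine mul_le_mul_of_nonneg_left ?_ hδ
  rw [integral_mul_right_eq_self ((L * closure (domain Γ)).indicator fun u => ‖φ (QuotientGroup.mk u)‖),
    integral_indicator hL'.measurableSet,
    ← integral_map (measurable_mk Γ).aemeasurable φ.continuous.norm.aestronglyMeasurable]
  haveI : IsFiniteMeasure ((N : ℝ≥0∞) • quotMeasure Γ) :=
    (quotMeasure Γ).smul_finite (ENNReal.natCast_ne_top N)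
  refine (integral_mono_measure hN (.of_forall fun y => norm_nonneg _)
    (φ.continuous.norm.integrable_of_hasCompactSupport (HasCompactSupport.of_compactSpace _))).trans
    ?_
  rw [integral_smul_measure, ENNReal.toReal_natCast, smul_eq_mul, mul_assoc]
  exact mul_le_mul_of_nonneg_left (integral_norm_le_embL2 Γ φ) (Nat.cast_nonneg N)

/-- The averaged continuous function. -/
def avgFun (f : G → ℂ) (φ : C(G ⧸ Γ, ℂ)) : C(G ⧸ Γ, ℂ) :=
  ∫ g, f g • φ.comp (shiftMap Γ g) ∂(haar : Measure G)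

theorem integrable_avgFun {f : G → ℂ} (hf : Continuous f) (hfs : HasCompactSupport f)
    (φ : C(G ⧸ Γ, ℂ)) : Integrable (fun g => f g • φ.comp (shiftMap Γ g)) (haar : Measure G) :=
  FA.GelfandRaikov.integrable_smul_orbit _ hf hfs
    ((ContinuousMap.continuous_postcomp φ).comp (continuous_shiftMap Γ))

theorem avgFun_apply {f : G → ℂ} (hf : Continuous f) (hfs : HasCompactSupport f)
    (φ : C(G ⧸ Γ, ℂ)) (x : G ⧸ Γ) :
    avgFun Γ f φ x = ∫ g, f g • φ (g • x) ∂(haar : Measure G) :=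
  ((ContinuousMap.evalCLM ℂ x).integral_comp_comm (integrable_avgFun Γ hf hfs φ)).symm

/-- The averaged unit ball is equicontinuous. -/
theorem equicontinuous_avgFun {f : G → ℂ} (hf : Continuous f) (hfs : HasCompactSupport f) :
    Equicontinuous fun φ : {φ : C(G ⧸ Γ, ℂ) // ‖embL2 Γ φ‖ ≤ 1} => (avgFun Γ f φ.1 : _ → ℂ) := by
  haveI := isMulRightInvariant_of_cocompact Γ
  intro x₀
  obtain ⟨W, hW, hWn⟩ := exists_compact_mem_nhds (1 : G)
  set L := tsupport f * W ∪ tsupport f with hL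
  obtain ⟨C, hC, hb⟩ := exists_orbit_bound Γ ((hfs.mul hW).union hfs : IsCompact L)
  refine Metric.equicontinuousAt_iff_right.2 fun ε hε => ?_
  set δ := ε / (C + 1) with hδ
  have hδ0 : 0 < δ := by positivity
  have hunif : ∀ᶠ h in 𝓝 (1 : G), ∀ g ∈ L, ‖f (g * h⁻¹) - f g‖ < δ := by
    have hc : Continuous fun p : G × G => ‖f (p.2 * p.1⁻¹) - f p.2‖ :=
      ((hf.comp (continuous_snd.mul continuous_fst.inv)).sub (hf.comp continuous_snd)).norm
    exact ((hfs.mul hW).union hfs : IsCompact L).eventually_forall_of_forall_eventually fun g _ =>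
      (hc.tendsto (1, g)).eventually (gt_mem_nhds (by simpa using hδ0))
  have hV : ∀ᶠ h in 𝓝 (1 : G), h ∈ W ∧ ∀ g ∈ L, ‖f (g * h⁻¹) - f g‖ < δ := Filter.Eventually.and (Filter.eventually_of_mem hWn fun h hh => hh) hunif
  have hop : (fun h : G => h • x₀) '' {h | h ∈ W ∧ ∀ g ∈ L, ‖f (g * h⁻¹) - f g‖ < δ} ∈ 𝓝 x₀ := by
    induction x₀ using QuotientGroup.induction_on with
    | _ a =>
      have ho : IsOpenMap fun h : G => h • (QuotientGroup.mk a : G ⧸ Γ) :=
        (QuotientGroup.isOpenMap_coe).comp (isOpenMap_mul_right a)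
      simpa using ho.image_mem_nhds hV
  refine Filter.mem_of_superset hop ?_
  rintro _ ⟨h, ⟨hhW, hh⟩, rfl⟩ ⟨φ, hφ⟩
  have hint : ∀ (k : G → ℂ), Continuous k → HasCompactSupport k →
      Integrable (fun g => k g • φ (g • x₀)) (haar : Measure G) := fun k hk hks =>
    FA.GelfandRaikov.integrable_smul_orbit _ hk hks (φ.continuous.comp (continuous_id.smul continuous_const))
  have e : avgFun Γ f φ (h • x₀) = ∫ g, f (g * h⁻¹) • φ (g • x₀) ∂(haar : Measure G) := by
    rw [avgFun_apply Γ hf hfs,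
      ← integral_mul_right_eq_self (fun g => f (g * h⁻¹) • φ (g • x₀)) h]
    simp only [mul_inv_cancel_right, mul_smul]
  show dist (avgFun Γ f φ x₀) (avgFun Γ f φ (h • x₀)) < ε
  rw [dist_eq_norm, norm_sub_rev, e, avgFun_apply Γ hf hfs, ← integral_sub
    (hint (fun g => f (g * h⁻¹)) (hf.comp (continuous_id.mul continuous_const))
      (hfs.comp_homeomorph (Homeomorph.mulRight h⁻¹))) (hint f hf hfs)]
  simp only [← sub_smul]
  refine (hb (fun g => f (g * h⁻¹) - f g) δ (fun g => ?_) (fun g hg => ?_) φ x₀).trans_lt ?_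
  · by_cases hg : g ∈ L
    · exact (hh g hg).le
    · rw [image_eq_zero_of_notMem_tsupport fun hm => hg (Or.inr hm),
        image_eq_zero_of_notMem_tsupport fun hm => hg (Or.inl
          ⟨g * h⁻¹, hm, h, hhW, inv_mul_cancel_right g h⟩), sub_zero, norm_zero]
      exact hδ0.le
  · rw [image_eq_zero_of_notMem_tsupport fun hm => hg (Or.inr hm),
      image_eq_zero_of_notMem_tsupport fun hm => hg (Or.inl
        ⟨g * h⁻¹, hm, h, hhW, inv_mul_cancel_right g h⟩), sub_zero]
  · calc δ * (C * ‖embL2 Γ φ‖) ≤ δ * C :=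
          mul_le_mul_of_nonneg_left (mul_le_of_le_one_right hC hφ) hδ0.le
      _ < δ * (C + 1) := mul_lt_mul_of_pos_left (lt_add_one C) hδ0
      _ = ε := div_mul_cancel₀ ε (by positivity)

/-- Averages against inverses are compact. -/
theorem isCompactOperator_average_inv {f : G → ℂ} (hf : Continuous f) (hfs : HasCompactSupport f)
    (b : QuotL2 Γ →L[ℂ] QuotL2 Γ)
    (hb : ∀ v, b v = ∫ g, f g • quasiRegular Γ g⁻¹ v ∂(haar : Measure G)) : IsCompactOperator b := by
  have hbe : ∀ φ, b (embL2 Γ φ) = embL2 Γ (avgFun Γ f φ) := fun φ => by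
    rw [avgFun, hb, ← (embL2 Γ).integral_comp_comm (integrable_avgFun Γ hf hfs φ)]
    simp only [quasiRegular_embL2, map_smul]
  set E := ContinuousMap.linearIsometryBoundedOfCompact (G ⧸ Γ) ℂ ℂ with hE
  set S : Set ((G ⧸ Γ) →ᵇ ℂ) := (fun φ => E (avgFun Γ f φ)) '' {φ | ‖embL2 Γ φ‖ ≤ 1} with hS
  obtain ⟨C, hC, hbd⟩ := exists_orbit_bound Γ hfs
  obtain ⟨M, hM⟩ := hf.bounded_above_of_compact_support hfs
  have hM0 : 0 ≤ M := (norm_nonneg _).trans (hM 1)
  have hSc : IsCompact (closure S) := by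
    refine BoundedContinuousFunction.arzela_ascoli (Metric.closedBall (0 : ℂ) (M * C))
      (isCompact_closedBall _ _) S ?_ fun x => Metric.equicontinuousAt_iff_right.2 fun ε hε => ?_
    · rintro _ x ⟨φ, hφ, rfl⟩
      rw [mem_closedBall_zero_iff]
      show ‖avgFun Γ f φ x‖ ≤ _
      rw [avgFun_apply Γ hf hfs]
      exact (hbd f M hM (fun g hg => image_eq_zero_of_notMem_tsupport hg) φ x).trans
        (mul_le_mul_of_nonneg_left (mul_le_of_le_one_right hC hφ) hM0)
    · filter_upwards [Metric.equicontinuousAt_iff_right.1 (equicontinuous_avgFun Γ hf hfs x) ε hε]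
        with y hy
      rintro ⟨_, φ, hφ, rfl⟩
      exact hy ⟨φ, hφ⟩
  refine (isCompactOperator_iff_image_ball_subset_compact (b : QuotL2 Γ →ₗ[ℂ] QuotL2 Γ) one_pos).2
    ⟨_, hSc.image (BoundedContinuousFunction.toLp 2 (quotMeasure Γ) ℂ).continuous, ?_⟩
  set K := BoundedContinuousFunction.toLp 2 (quotMeasure Γ) ℂ '' closure S with hK
  have hKc : IsClosed K :=
    (hSc.image (BoundedContinuousFunction.toLp 2 (quotMeasure Γ) ℂ).continuous).isClosed
  rintro _ ⟨v, hv, rfl⟩
  have hsub : Metric.ball (0 : QuotL2 Γ) 1 ∩ range (embL2 Γ) ⊆ b ⁻¹' K := by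
    rintro _ ⟨hu, φ, rfl⟩
    refine ⟨E (avgFun Γ f φ), subset_closure ⟨φ, (mem_ball_zero_iff.1 hu).le, rfl⟩, ?_⟩
    rw [hbe]
    rfl
  exact closure_minimal hsub (hKc.preimage b.continuous)
    ((ContinuousMap.toLp_denseRange ℂ (quotMeasure Γ) ℂ (p := 2) ENNReal.ofNat_ne_top).open_subset_closure_inter
      Metric.isOpen_ball hv)

/-- **Averaged translations are compact operators.** -/
theorem exists_compact_average {f : G → ℂ} (hf : Continuous f) (hfs : HasCompactSupport f) :
    ∃ a : QuotL2 Γ →L[ℂ] QuotL2 Γ,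
      (∀ v, a v = ∫ g, f g • quasiRegular Γ g v ∂(haar : Measure G)) ∧
      (∀ v, star a v = ∫ g, conj (f g) • quasiRegular Γ g⁻¹ v ∂(haar : Measure G)) ∧
      IsCompactOperator a ∧ IsCompactOperator ⇑(star a : QuotL2 Γ →L[ℂ] QuotL2 Γ) := by
  obtain ⟨a, ha, hast, -⟩ := FA.GelfandRaikov.exists_average (haar : Measure G) (quasiRegular Γ)
    (continuous_quasiRegular Γ) (norm_quasiRegular Γ) f hf hfs
  have hb := isCompactOperator_average_inv Γ (Complex.continuous_conj.comp hf)
    (hfs.comp_left (map_zero _)) (star a) hast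
  refine ⟨a, ha, hast, ?_, hb⟩
  have hP : IsCompactOperator (star a * a : QuotL2 Γ →L[ℂ] QuotL2 Γ) := hb.comp_clm a
  refine (isCompactOperator_iff_isCompact_closure_image_ball (a : QuotL2 Γ →ₗ[ℂ] QuotL2 Γ)
    one_pos).2 (TotallyBounded.isCompact_of_isClosed ?_ isClosed_closure)
  refine TotallyBounded.closure (Metric.totallyBounded_iff.2 fun ε hε => ?_)
  have hPt : TotallyBounded ((star a * a) '' Metric.ball (0 : QuotL2 Γ) 1) :=
    ((hP.isCompact_closure_image_ball (f := ((star a * a : QuotL2 Γ →L[ℂ] QuotL2 Γ) :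
      QuotL2 Γ →ₗ[ℂ] QuotL2 Γ)) 1).totallyBounded).subset subset_closure
  obtain ⟨t, hts, htf, hcov⟩ := Metric.finite_approx_of_totallyBounded hPt (ε ^ 2 / 2) (by positivity)
  obtain ⟨s, hs1, hsf, hst⟩ : ∃ s ⊆ Metric.ball (0 : QuotL2 Γ) 1, s.Finite ∧ (star a * a) '' s = t :=
    exists_subset_image_finite_and.1 ⟨t, hts, htf, rfl⟩ |>.imp fun s hs => ⟨hs.1, hs.2.1, hs.2.2.symm⟩
  refine ⟨a '' s, hsf.image a, ?_⟩
  rintro _ ⟨v, hv, rfl⟩
  obtain ⟨y, hy, hvy⟩ := mem_iUnion₂.1 (hcov (mem_image_of_mem _ hv))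
  rw [← hst] at hy
  obtain ⟨w, hw, rfl⟩ := hy
  refine mem_iUnion₂.2 ⟨a w, mem_image_of_mem a hw, ?_⟩
  rw [Metric.mem_ball, dist_eq_norm] at hvy ⊢
  show ‖a v - a w‖ < ε
  rw [← map_sub] at hvy ⊢
  have h1 : ‖a (v - w)‖ ^ 2 ≤ ‖(star a * a) (v - w)‖ * ‖v - w‖ := by
    have h := norm_inner_le_norm (𝕜 := ℂ) ((star a * a) (v - w)) (v - w)
    rw [mul_apply_eq_comp, ContinuousLinearMap.star_eq_adjoint,
      ContinuousLinearMap.adjoint_inner_left, inner_self_eq_norm_sq_to_K, norm_pow,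
      RCLike.norm_ofReal, abs_norm] at h
    exact h
  have h2 : ‖v - w‖ ≤ 2 := by
    have := norm_sub_le v w
    have h3 := mem_ball_zero_iff.1 hv
    have h4 := mem_ball_zero_iff.1 (hs1 hw)
    linarith
  have h3 : ‖a (v - w)‖ ^ 2 < ε ^ 2 := by
    refine h1.trans_lt ?_
    nlinarith [norm_nonneg ((star a * a) (v - w)), norm_nonneg (v - w)]
  exact lt_of_pow_lt_pow_left₀ 2 hε.le h3

end FA.CompactQuotient

end
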