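import Fermat.Agent.GelfandRaikov.Main
import Mathlib.Analysis.InnerProductSpace.Spectrum
import Mathlib.Analysis.Normed.Operator.Compact.FredholmAlternative
import Mathlib.Topology.UrysohnsLemma

/-!
# Representations with compact averages decompose discretely

If all averages of a strongly continuous unitary representation are compact operators, a minimal
intersection with a finite-dimensional eigenspace yields an irreducible subspace of every invariant
subspace.  Zorn gives a dense orthogonal sum of such subspaces, and every equivalent copy of an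
irreducible representation contributes to one eigenspace, so multiplicities are finite.
-/

set_option autoImplicit false
set_option linter.unusedSectionVars false
set_option linter.style.haveILetI false

noncomputable section

open MeasureTheory Topology Set Filter
open scoped ComplexConjugate InnerProductSpace

namespace FA.CompactQuotient

variable {G : Type*} [Group G] [TopologicalSpace G] [IsTopologicalGroup G] [T2Space G]
  [LocallyCompactSpace G] [MeasurableSpace G] [BorelSpace G]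
  {H : Type*} [NormedAddCommGroup H] [InnerProductSpace ℂ H] [CompleteSpace H]

/-- A closed invariant subspace, nonzero and minimal with these properties. -/
def IsIrreducibleSubspace (U : G →* (H →L[ℂ] H)) (W : Submodule ℂ H) : Prop :=
  IsClosed (W : Set H) ∧ (∀ g, ∀ w ∈ W, U g w ∈ W) ∧ W ≠ ⊥ ∧
    ∀ W' ≤ W, IsClosed (W' : Set H) → (∀ g, ∀ w ∈ W', U g w ∈ W') → W' = ⊥ ∨ W' = W

/-- Every average is a compact operator. -/
def HasCompactAverages (μ : Measure G) (U : G →* (H →L[ℂ] H)) : Prop :=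
  ∀ f : G → ℂ, Continuous f → HasCompactSupport f → ∃ a : H →L[ℂ] H,
    (∀ v, a v = ∫ g, f g • U g v ∂μ) ∧ (∀ v, star a v = ∫ g, conj (f g) • U g⁻¹ v ∂μ) ∧
      IsCompactOperator a

variable (μ : Measure G) [IsFiniteMeasureOnCompacts μ] [μ.IsOpenPosMeasure] [μ.IsMulLeftInvariant]
  (U : G →* (H →L[ℂ] H)) (hU : ∀ v, Continuous fun g => U g v) (hiso : ∀ g v, ‖U g v‖ = ‖v‖)

include hiso in
theorem invariant_orthogonal {W : Submodule ℂ H} (hW : ∀ g, ∀ w ∈ W, U g w ∈ W) :
    ∀ g, ∀ w ∈ Wᗮ, U g w ∈ Wᗮ := fun g w hw => by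
  rw [Submodule.mem_orthogonal'] at hw ⊢
  intro u hu
  rw [← ContinuousLinearMap.adjoint_inner_right, ← ContinuousLinearMap.star_eq_adjoint,
    FA.GelfandRaikov.star_eq_inv U hiso g]
  exact hw _ (hW g⁻¹ u hu)

include hU hiso in
theorem exists_average_apply_ne {v : H} (hv : v ≠ 0) :
    ∃ f : G → ℂ, Continuous f ∧ HasCompactSupport f ∧ ∫ g, f g • U g v ∂μ ≠ 0 := by
  obtain ⟨d, hd⟩ : ∃ d, d = ‖v‖ := ⟨_, rfl⟩
  have hd0 : 0 < d := hd ▸ norm_pos_iff.2 hv
  have hVo : IsOpen {g | ‖U g v - v‖ < d / 2} :=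
    isOpen_lt ((hU v).sub continuous_const).norm continuous_const
  have h1V : (1 : G) ∈ {g | ‖U g v - v‖ < d / 2} := by
    show ‖U 1 v - v‖ < d / 2
    rw [map_one, one_apply_eq_self, sub_self, norm_zero]
    linarith
  obtain ⟨u, h1, h0, hus, hu01⟩ := exists_continuous_one_zero_of_isCompact
    (isCompact_singleton (x := (1 : G))) hVo.isClosed_compl
    (disjoint_singleton_left.2 (not_not.2 h1V))
  have hfc : Continuous fun y => (u y : ℂ) := Complex.continuous_ofReal.comp u.continuous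
  have hfs : HasCompactSupport fun y => (u y : ℂ) :=
    hus.comp_left (g := ((↑) : ℝ → ℂ)) Complex.ofReal_zero
  refine ⟨_, hfc, hfs, fun e => ?_⟩
  set c : ℝ := ∫ g, u g ∂μ with hc
  have hui : Integrable (fun g => u g) μ := u.continuous.integrable_of_hasCompactSupport hus
  have hc0 : 0 < c := u.continuous.integral_pos_of_hasCompactSupport_nonneg_nonzero hus
    (fun g => (hu01 g).1) (x := 1) (by rw [h1 (mem_singleton 1)]; exact one_ne_zero)
  have hw : ‖∫ g, (u g : ℂ) • U g v ∂μ - (c : ℂ) • v‖ ≤ c * (d / 2) := by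
    rw [hc, ← integral_complex_ofReal, ← integral_smul_const, ← integral_mul_const]
    refine le_trans (le_of_eq (congrArg norm (integral_sub
      (FA.GelfandRaikov.integrable_smul_orbit _ hfc hfs (φ := fun g => U g v) (hU v))
      ((hfc.integrable_of_hasCompactSupport hfs).smul_const v)).symm)) ?_
    refine norm_integral_le_of_norm_le (hui.mul_const _) (.of_forall fun g => ?_)
    rw [← smul_sub, norm_smul, Complex.norm_real, Real.norm_of_nonneg (hu01 g).1]
    rcases lt_or_ge (‖U g v - v‖) (d / 2) with h | h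
    · exact mul_le_mul_of_nonneg_left h.le (hu01 g).1
    · rw [h0 (show g ∈ {g | ‖U g v - v‖ < d / 2}ᶜ from not_lt.2 h)]
      simp
  rw [e, zero_sub, norm_neg, norm_smul, Complex.norm_real, Real.norm_of_nonneg hc0.le, ← hd] at hw
  nlinarith

variable (hC : HasCompactAverages μ U)

include hU hiso hC in
/-- A compact symmetric operator preserving the invariant subspaces and moving a given vector. -/
theorem exists_operator {v : H} (hv : v ≠ 0) :
    ∃ P : H →L[ℂ] H, IsCompactOperator P ∧ (P : H →ₗ[ℂ] H).IsSymmetric ∧ P v ≠ 0 ∧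
      ∀ W : Submodule ℂ H, IsClosed (W : Set H) → (∀ g, ∀ w ∈ W, U g w ∈ W) → ∀ w ∈ W, P w ∈ W := by
  obtain ⟨f, hf, hfs, hne⟩ := exists_average_apply_ne μ U hU hiso hv
  obtain ⟨a, ha, hast, hac⟩ := hC f hf hfs
  refine ⟨star a * a, (hac.clm_comp (star a : H →L[ℂ] H) : IsCompactOperator ⇑(star a * a : H →L[ℂ] H)),
    ContinuousLinearMap.isSelfAdjoint_iff_isSymmetric.1 (IsSelfAdjoint.star_mul_self a),
    fun e => hne ?_, fun W hW hinv w hw => ?_⟩
  · rw [← ha]
    rw [mul_apply_eq_comp] at e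
    refine (inner_self_eq_zero (𝕜 := ℂ)).1 ?_
    rw [← ContinuousLinearMap.adjoint_inner_left, ← ContinuousLinearMap.star_eq_adjoint, e,
      inner_zero_left]
  · have hmem : ∀ u ∈ W, a u ∈ W := fun u hu => by
      rw [ha]
      exact FA.GelfandRaikov.integral_mem_submodule hW
        (FA.GelfandRaikov.integrable_smul_orbit μ hf hfs (hU u)) fun g =>
        W.smul_mem _ (hinv g u hu)
    rw [mul_apply_eq_comp, hast]
    exact FA.GelfandRaikov.integral_mem_submodule hW (FA.GelfandRaikov.integrable_smul_orbit μ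
      (Complex.continuous_conj.comp hf) (hfs.comp_left (map_zero _))
      ((hU _).comp continuous_inv)) fun g => W.smul_mem _ (hinv g⁻¹ _ (hmem w hw))

/-- A compact symmetric operator has a nonzero eigenvalue on an invariant subspace it moves. -/
theorem exists_eigenvector {P : H →L[ℂ] H} (hP : IsCompactOperator P)
    (hs : (P : H →ₗ[ℂ] H).IsSymmetric) {V : Submodule ℂ H} (hV : IsClosed (V : Set H))
    (hinv : ∀ w ∈ V, P w ∈ V) {v : H} (hv : v ∈ V) (hne : P v ≠ 0) :
    ∃ z : ℂ, z ≠ 0 ∧ ∃ e ∈ V, e ≠ 0 ∧ P e = z • e := by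
  haveI : CompleteSpace V := hV.completeSpace_coe
  have hsymm : ((P : H →ₗ[ℂ] H).restrict hinv).IsSymmetric := fun a b => hs a b
  have hcomp : IsCompactOperator ((P : H →ₗ[ℂ] H).restrict hinv) := hP.restrict' hinv
  let S : V →L[ℂ] V := ContinuousLinearMap.mkOfIsCompactOperator hcomp
  by_contra hno
  push Not at hno
  have h0 : S = 0 := (ContinuousLinearMap.eq_zero_of_forall_hasEigenvalue_eq_zero (T := S) hcomp
    hsymm).1 fun z hz => by
    by_contra hz0
    obtain ⟨e, he⟩ := hz.exists_hasEigenvector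
    exact hno z hz0 e e.2 (fun e0 => he.2 (Subtype.ext e0))
      (congrArg Subtype.val (Module.End.mem_eigenspace_iff.1 he.1))
  exact hne (congrArg (fun T : V →L[ℂ] V => ((T ⟨v, hv⟩ : V) : H)) h0)

include hU hiso hC in
/-- **Every nonzero closed invariant subspace contains an irreducible one.** -/
theorem exists_irreducible_le {V : Submodule ℂ H} (hVc : IsClosed (V : Set H))
    (hVi : ∀ g, ∀ w ∈ V, U g w ∈ V) (hV : V ≠ ⊥) :
    ∃ W ≤ V, IsIrreducibleSubspace U W := by
  classical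
  obtain ⟨v, hv, hv0⟩ := (Submodule.ne_bot_iff V).1 hV
  obtain ⟨P, hPc, hPs, hPv, hPinv⟩ := exists_operator μ U hU hiso hC hv0
  obtain ⟨z, hz, e, heV, he0, hPe⟩ := exists_eigenvector hPc hPs hVc (hPinv V hVc hVi) hv hPv
  haveI hfin := ContinuousLinearMap.finite_dimensional_eigenspace hPc z hz
  set E := Module.End.eigenspace (P : H →ₗ[ℂ] H) z with hE
  have hex : ∃ n, ∃ W ≤ V, IsClosed (W : Set H) ∧ (∀ g, ∀ w ∈ W, U g w ∈ W) ∧ W ⊓ E ≠ ⊥ ∧
      Module.finrank ℂ ↥(W ⊓ E) = n :=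
    ⟨_, V, le_rfl, hVc, hVi, (Submodule.ne_bot_iff _).2
      ⟨e, ⟨heV, Module.End.mem_eigenspace_iff.2 hPe⟩, he0⟩, rfl⟩
  obtain ⟨W₀, hW₀V, hW₀c, hW₀i, hW₀ne, hW₀n⟩ := Nat.find_spec hex
  have hmin : ∀ W ≤ W₀, IsClosed (W : Set H) → (∀ g, ∀ w ∈ W, U g w ∈ W) → W ⊓ E ≠ ⊥ →
      W ⊓ E = W₀ ⊓ E := fun W hW hc hi hne => by
    haveI : FiniteDimensional ℂ ↥(W₀ ⊓ E) := Submodule.finiteDimensional_of_le inf_le_right
    exact Submodule.eq_of_le_of_finrank_le (inf_le_inf_right E hW)
      (hW₀n.le.trans (Nat.find_min' hex ⟨W, hW.trans hW₀V, hc, hi, hne, rfl⟩))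
  obtain ⟨e₀, he₀, he₀0⟩ := (Submodule.ne_bot_iff _).1 hW₀ne
  set W := (Submodule.span ℂ (range fun g => U g e₀)).topologicalClosure with hW
  have hWc : IsClosed (W : Set H) := Submodule.isClosed_topologicalClosure _
  have hWi : ∀ g, ∀ w ∈ W, U g w ∈ W := fun g => by
    refine Submodule.topologicalClosure_minimal _ (t := W.comap (U g : H →ₗ[ℂ] H))
      (Submodule.span_le.2 ?_) (hWc.preimage (U g).continuous)
    rintro _ ⟨h, rfl⟩
    refine Submodule.le_topologicalClosure _ (Submodule.subset_span ⟨g * h, ?_⟩)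
    simp only [map_mul, mul_apply_eq_comp]
    rfl
  have hWle : W ≤ W₀ := Submodule.topologicalClosure_minimal _
    (Submodule.span_le.2 (by rintro _ ⟨g, rfl⟩; exact hW₀i g e₀ he₀.1)) hW₀c
  have he₀W : e₀ ∈ W := Submodule.le_topologicalClosure _
    (Submodule.subset_span ⟨1, by simp only [map_one, one_apply_eq_self]⟩)
  refine ⟨W, hWle.trans hW₀V, hWc, hWi,
    (Submodule.ne_bot_iff W).2 ⟨e₀, he₀W, he₀0⟩, fun W' hW' hc' hi' => ?_⟩
  haveI : CompleteSpace W' := hc'.completeSpace_coe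
  obtain ⟨p, hp⟩ : ∃ p, p = W'.starProjection e₀ := ⟨_, rfl⟩
  obtain ⟨q, hq⟩ : ∃ q, q = e₀ - p := ⟨_, rfl⟩
  have hpW : p ∈ W' := hp ▸ W'.starProjection_apply_mem e₀
  have hqW : q ∈ W'ᗮ := hq ▸ hp ▸ W'.sub_starProjection_mem_orthogonal e₀
  have hoi := invariant_orthogonal U hiso hi'
  have hoc : IsClosed (W'ᗮ : Set H) := Submodule.isClosed_orthogonal _
  have hz' : P e₀ = z • e₀ := Module.End.mem_eigenspace_iff.1 he₀.2
  have hPp : P p = z • p := by
    have h1 := Submodule.eq_starProjection_of_mem_orthogonal' (u := P e₀) (hPinv W' hc' hi' p hpW)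
      (hPinv W'ᗮ hoc hoi q hqW) (by rw [← map_add, hq, add_sub_cancel])
    rw [← h1, hz', map_smul, ← hp]
  have hPq : P q = z • q := by rw [hq, map_sub, hz', hPp, smul_sub]
  rcases eq_or_ne p 0 with hp0 | hp0
  · left
    have he : e₀ ∈ W'ᗮ := by rwa [hq, hp0, sub_zero] at hqW
    have hle : W ≤ W'ᗮ := Submodule.topologicalClosure_minimal _
      (Submodule.span_le.2 (by rintro _ ⟨g, rfl⟩; exact hoi g e₀ he)) hoc
    exact (Submodule.eq_bot_iff W').2 fun w hw => inner_self_eq_zero.1 (hle (hW' hw) w hw)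
  rcases eq_or_ne q 0 with hq0 | hq0
  · right
    have he : e₀ ∈ W' := by
      have h : e₀ = p := sub_eq_zero.1 (hq.symm.trans hq0)
      rwa [h]
    exact le_antisymm hW' (Submodule.topologicalClosure_minimal _
      (Submodule.span_le.2 (by rintro _ ⟨g, rfl⟩; exact hi' g e₀ he)) hc')
  exfalso
  have h1 : e₀ ∈ W' ⊓ E := by
    rw [hmin W' (hW'.trans hWle) hc' hi' ((Submodule.ne_bot_iff _).2
      ⟨p, ⟨hpW, Module.End.mem_eigenspace_iff.2 hPp⟩, hp0⟩)]
    exact he₀
  have h2 : e₀ ∈ (W ⊓ W'ᗮ) ⊓ E := by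
    rw [hmin (W ⊓ W'ᗮ) (inf_le_left.trans hWle) (hWc.inter hoc)
      (fun g w hw => ⟨hWi g w hw.1, hoi g w hw.2⟩) ((Submodule.ne_bot_iff _).2
      ⟨q, ⟨⟨hq ▸ W.sub_mem he₀W (hW' hpW), hqW⟩, Module.End.mem_eigenspace_iff.2 hPq⟩, hq0⟩)]
    exact he₀
  exact he₀0 (inner_self_eq_zero.1 (h2.1.2 e₀ h1.1))

include hU hiso hC in
/-- **Discrete decomposition.** -/
theorem exists_decomposition :
    ∃ S : Set (Submodule ℂ H), (∀ W ∈ S, IsIrreducibleSubspace U W) ∧
      (S.Pairwise fun W W' => ∀ v ∈ W, ∀ w ∈ W', ⟪v, w⟫_ℂ = 0) ∧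
      Dense ((sSup S : Submodule ℂ H) : Set H) := by
  obtain ⟨S, hS⟩ := zorn_subset {S : Set (Submodule ℂ H) | (∀ W ∈ S, IsIrreducibleSubspace U W) ∧
      S.Pairwise fun W W' => ∀ v ∈ W, ∀ w ∈ W', ⟪v, w⟫_ℂ = 0} fun c hc hchain =>
    ⟨⋃₀ c, ⟨fun W ⟨s, hs, hW⟩ => (hc hs).1 W hW,
      (pairwise_sUnion hchain.directedOn).2 fun s hs => (hc hs).2⟩,
      fun s hs => subset_sUnion_of_mem hs⟩
  refine ⟨S, hS.prop.1, hS.prop.2, Submodule.dense_iff_topologicalClosure_eq_top.2
    ((Submodule.topologicalClosure_eq_top_iff).2 ?_)⟩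
  by_contra hne
  have hinv : ∀ g, ∀ w ∈ sSup S, U g w ∈ sSup S := fun g => by
    have h : sSup S ≤ (sSup S).comap (U g : H →ₗ[ℂ] H) := sSup_le fun W hW w hw =>
      le_sSup hW ((hS.prop.1 W hW).2.1 g w hw)
    exact h
  obtain ⟨W, hW, hirr⟩ := exists_irreducible_le μ U hU hiso hC (Submodule.isClosed_orthogonal _)
    (invariant_orthogonal U hiso hinv) hne
  have hmem : W ∈ S := by
    refine hS.le_of_ge (y := insert W S) ⟨forall_mem_insert.2 ⟨hirr, hS.prop.1⟩, ?_⟩
      (subset_insert W S) (mem_insert W S)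
    refine pairwise_insert.2 ⟨hS.prop.2, fun W' hW' _ => ⟨fun v hv w hw => ?_, fun v hv w hw => ?_⟩⟩
    · exact inner_eq_zero_symm.1 (hW hv w (le_sSup hW' hw))
    · exact hW hw v (le_sSup hW' hv)
  obtain ⟨w, hw, hw0⟩ := (Submodule.ne_bot_iff W).1 hirr.2.2.1
  exact hw0 (inner_self_eq_zero.1 (hW hw w (le_sSup hmem hw)))

include hU hiso hC in
/-- **Finite multiplicity.** Orthogonal equivariant isometric copies of a nonzero representation
form a finite family. -/
theorem finite_of_orthogonal_copies {K : Type*} [NormedAddCommGroup K] [InnerProductSpace ℂ K]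
    [CompleteSpace K] [Nontrivial K] (U' : G →* (K →L[ℂ] K))
    {ι : Type*} (j : ι → K →ₗᵢ[ℂ] H) (hj : ∀ i g k, j i (U' g k) = U g (j i k))
    (horth : Pairwise fun i i' => ∀ k k', ⟪j i k, j i' k'⟫_ℂ = 0) : Finite ι := by
  rcases isEmpty_or_nonempty ι with hι | ⟨⟨i₀⟩⟩
  · exact Finite.of_subsingleton
  obtain ⟨k, hk⟩ := exists_ne (0 : K)
  have hk' : j i₀ k ≠ 0 := fun e => hk ((j i₀).injective (e.trans (map_zero _).symm))
  obtain ⟨f, hf, hfs, hne⟩ := exists_average_apply_ne μ U hU hiso hk'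
  obtain ⟨a, ha, hast, hac⟩ := hC f hf hfs
  have hU' : ∀ u, Continuous fun g => U' g u := fun u => by
    have h := (hU (j i₀ u))
    exact (j i₀).isometry.isEmbedding.continuous_iff.2 (h.congr fun g => (hj i₀ g u).symm)
  have hiso' : ∀ g u, ‖U' g u‖ = ‖u‖ := fun g u => by
    rw [← (j i₀).norm_map, hj, hiso, (j i₀).norm_map]
  have hint : ∀ (i : ι) (w : G → ℂ) (σ : G → G), Continuous w → HasCompactSupport w →
      Continuous σ → ∀ u, ∫ g, w g • U (σ g) (j i u) ∂μ = j i (∫ g, w g • U' (σ g) u ∂μ) :=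
    fun i w σ hw hws hσ u => by
    refine Eq.trans (integral_congr_ae (.of_forall fun g => ?_))
      ((j i).toContinuousLinearMap.integral_comp_comm (φ := fun g => w g • U' (σ g) u)
        (FA.GelfandRaikov.integrable_smul_orbit μ hw hws ((hU' u).comp hσ)))
    show w g • U (σ g) (j i u) = j i (w g • U' (σ g) u)
    rw [map_smul, hj]
  let P' : K → K := fun u =>
    ∫ g, conj (f g) • U' g⁻¹ (∫ h, f h • U' h u ∂μ) ∂μ
  have hcommP : ∀ i u, (star a * a) (j i u) = j i (P' u) := fun i u => by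
    have h1 : ∫ g, f g • U g (j i u) ∂μ = j i (∫ g, f g • U' g u ∂μ) :=
      hint i f id hf hfs continuous_id u
    rw [mul_apply_eq_comp, ha, h1, hast,
      hint i (fun g => conj (f g)) (·⁻¹) (Complex.continuous_conj.comp hf)
        (hfs.comp_left (map_zero _)) continuous_inv]
  have hPs : ((star a * a : H →L[ℂ] H) : H →ₗ[ℂ] H).IsSymmetric :=
    ContinuousLinearMap.isSelfAdjoint_iff_isSymmetric.1 (IsSelfAdjoint.star_mul_self a)
  have hPc : IsCompactOperator (star a * a : H →L[ℂ] H) := (hac.clm_comp (star a : H →L[ℂ] H) : IsCompactOperator ⇑(star a * a : H →L[ℂ] H))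
  have hVc : IsClosed ((LinearMap.range (j i₀).toLinearMap : Submodule ℂ H) : Set H) :=
    (j i₀).isometry.isClosedEmbedding.isClosed_range
  have hPv : (star a * a) (j i₀ k) ≠ 0 := fun e => hne (by
    rw [← ha]
    rw [mul_apply_eq_comp] at e
    refine (inner_self_eq_zero (𝕜 := ℂ)).1 ?_
    rw [← ContinuousLinearMap.adjoint_inner_left, ← ContinuousLinearMap.star_eq_adjoint, e,
      inner_zero_left])
  obtain ⟨z, hz, e, he, he0, hPe⟩ := exists_eigenvector (P := star a * a) hPc hPs hVc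
    (fun w ⟨u, hu⟩ => ⟨P' u, by rw [← hu]; exact (hcommP i₀ u).symm⟩) ⟨k, rfl⟩ hPv
  obtain ⟨k₀, rfl⟩ := he
  have hk₀ : P' k₀ = z • k₀ := by
    refine (j i₀).injective ?_
    rw [← hcommP, map_smul]
    exact hPe
  have hk₀0 : k₀ ≠ 0 := fun h => he0 (by rw [h]; exact map_zero _)
  haveI := ContinuousLinearMap.finite_dimensional_eigenspace hPc z hz
  let F : ι → Module.End.eigenspace ((star a * a : H →L[ℂ] H) : H →ₗ[ℂ] H) z := fun i =>
    ⟨j i k₀, Module.End.mem_eigenspace_iff.2 (by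
      show (star a * a) (j i k₀) = z • j i k₀
      rw [hcommP, hk₀, map_smul])⟩
  have hli : LinearIndependent ℂ F := by
    refine linearIndependent_of_ne_zero_of_inner_eq_zero (fun i h => hk₀0 ?_) fun i i' h => ?_
    · exact (j i).injective ((congrArg Subtype.val h).trans (map_zero _).symm)
    · exact horth h k₀ k₀
  exact hli.finite

end FA.CompactQuotient

end
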