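import Mathlib.Topology.Algebra.IsUniformGroup.DiscreteSubgroup
import Mathlib.Topology.Algebra.ProperAction.Basic
import Mathlib.MeasureTheory.Measure.Haar.Quotient
import Mathlib.MeasureTheory.Group.FundamentalDomain

/-!
# Fundamental domains of discrete cocompact subgroups

For a discrete subgroup `Γ` with compact quotient, finitely many relatively compact open sets on
which `G → G ⧸ Γ` is injective cover the quotient.  Removing from each the translates of the earlier
ones gives a measurable relatively compact set meeting every coset exactly once.  The same charts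
show that the quotient σ-algebra is the Borel one.
-/

set_option autoImplicit false
set_option linter.unusedSectionVars false
set_option linter.style.haveILetI false

noncomputable section

open MeasureTheory Topology Set
open scoped Pointwise

namespace FA.CompactQuotient

variable {G : Type*} [Group G] [TopologicalSpace G] [IsTopologicalGroup G] [T2Space G]
  [LocallyCompactSpace G] (Γ : Subgroup G) [DiscreteTopology Γ] [CompactSpace (G ⧸ Γ)]

/-- A neighbourhood of `1` with `U⁻¹ U ∩ Γ = 1`. -/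
theorem exists_small_nhd : ∃ U : Set G, IsOpen U ∧ (1 : G) ∈ U ∧
    ∀ u ∈ U, ∀ v ∈ U, u⁻¹ * v ∈ Γ → u = v := by
  obtain ⟨V, hV, hVeq⟩ := isOpen_induced_iff.1 (isOpen_discrete ({1} : Set Γ))
  have h1V : (1 : G) ∈ V := by
    have h : (1 : Γ) ∈ Subtype.val ⁻¹' V := hVeq ▸ mem_singleton _
    exact h
  have hc : Continuous fun p : G × G => p.1⁻¹ * p.2 := continuous_fst.inv.mul continuous_snd
  have hmem : (fun p : G × G => p.1⁻¹ * p.2) ⁻¹' V ∈ 𝓝 ((1 : G), (1 : G)) :=
    hc.continuousAt.preimage_mem_nhds (hV.mem_nhds (by simpa using h1V))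
  obtain ⟨A, hA, B, hB, hAB⟩ := mem_nhds_prod_iff.1 hmem
  obtain ⟨U, hU, hUo, h1U⟩ := mem_nhds_iff.1 (Filter.inter_mem hA hB)
  refine ⟨U, hUo, h1U, fun u hu v hv huv => ?_⟩
  have hv' : u⁻¹ * v ∈ V := hAB (mk_mem_prod (hU hu).1 (hU hv).2)
  have h : (⟨u⁻¹ * v, huv⟩ : Γ) ∈ Subtype.val ⁻¹' V := hv'
  rw [hVeq, mem_singleton_iff, Subtype.ext_iff] at h
  exact inv_mul_eq_one.1 h

/-- **Charts.** Finitely many relatively compact open sets, injective into the quotient, cover it. -/
theorem exists_charts : ∃ (n : ℕ) (O : Fin n → Set G), (∀ i, IsOpen (O i)) ∧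
    (∀ i, IsCompact (closure (O i))) ∧
    (∀ i, InjOn (QuotientGroup.mk : G → G ⧸ Γ) (O i)) ∧
    ⋃ i, (QuotientGroup.mk : G → G ⧸ Γ) '' O i = univ := by
  obtain ⟨U, hUo, h1U, hU⟩ := exists_small_nhd Γ
  choose K hK hKn using fun a : G => exists_compact_mem_nhds a
  let P : G → Set G := fun a => (a • U) ∩ interior (K a)
  have hPo : ∀ a, IsOpen (P a) := fun a => (hUo.smul a).inter isOpen_interior
  have hPmem : ∀ a, a ∈ P a := fun a =>
    ⟨⟨1, h1U, mul_one a⟩, mem_interior_iff_mem_nhds.2 (hKn a)⟩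
  obtain ⟨t, ht⟩ := isCompact_univ.elim_finite_subcover
    (fun a => (QuotientGroup.mk : G → G ⧸ Γ) '' P a)
    (fun a => QuotientGroup.isOpenMap_coe _ (hPo a)) fun x _ => by
      induction x using QuotientGroup.induction_on with
      | _ a => exact mem_iUnion.2 ⟨a, a, hPmem a, rfl⟩
  refine ⟨t.card, fun i => P (t.equivFin.symm i : G), fun i => hPo _, fun i => ?_, fun i => ?_,
    eq_univ_of_forall fun x => ?_⟩
  · exact (hK _).closure_of_subset (inter_subset_right.trans interior_subset)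
  · rintro u ⟨⟨u₀, hu₀, rfl⟩, -⟩ v ⟨⟨v₀, hv₀, rfl⟩, -⟩ h
    have h' := QuotientGroup.eq.1 h
    simp only [smul_eq_mul] at h' ⊢
    rw [mul_inv_rev, mul_assoc, inv_mul_cancel_left] at h'
    rw [hU u₀ hu₀ v₀ hv₀ h']
  · obtain ⟨a, ha, hx⟩ := mem_iUnion₂.1 (ht (mem_univ x))
    exact mem_iUnion.2 ⟨t.equivFin ⟨a, ha⟩, by simpa using hx⟩

variable [MeasurableSpace G] [BorelSpace G]

/-- **A relatively compact measurable fundamental domain.** -/
theorem exists_domain : ∃ D : Set G, MeasurableSet D ∧ IsCompact (closure D) ∧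
    ∀ x, ∃! γ : Γ, x * (γ : G) ∈ D := by
  obtain ⟨n, O, hOo, hOc, hOi, hcov⟩ := exists_charts Γ
  let p : G → G ⧸ Γ := QuotientGroup.mk
  let R : Fin n → Set G := fun i => O i ∩ ⋂ j, ⋂ (_ : j < i), (p ⁻¹' (p '' O j))ᶜ
  have hp : ∀ (x : G) (γ : Γ), p (x * γ) = p x := fun x γ => QuotientGroup.mk_mul_of_mem x γ.2
  refine ⟨⋃ i, R i, MeasurableSet.iUnion fun i => (hOo i).measurableSet.inter ?_, ?_, fun x => ?_⟩
  · exact MeasurableSet.iInter fun j => MeasurableSet.iInter fun _ =>
      ((QuotientGroup.isOpenMap_coe _ (hOo j)).preimage continuous_quotient_mk').measurableSet.compl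
  · exact (isCompact_iUnion hOc).closure_of_subset
      (iUnion_subset fun i => inter_subset_left.trans (subset_closure.trans
        (subset_iUnion (fun i => closure (O i)) i)))
  · classical
    have hex : ∃ i, p x ∈ p '' O i := mem_iUnion.1 (hcov ▸ mem_univ (p x))
    obtain ⟨i, hi, hmin⟩ := Finset.exists_min_image (Finset.univ.filter fun i => p x ∈ p '' O i) id
      (hex.imp fun i hi => Finset.mem_filter.2 ⟨Finset.mem_univ i, hi⟩)
    rw [Finset.mem_filter] at hi
    have huniq : ∀ y ∈ ⋃ k, R k, p y = p x → y ∈ O i := fun y hy hpy => by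
      obtain ⟨k, hk, hk'⟩ := mem_iUnion.1 hy
      rcases lt_trichotomy k i with h | rfl | h
      · exact absurd (hmin k (Finset.mem_filter.2 ⟨Finset.mem_univ k, hpy ▸ mem_image_of_mem p hk⟩))
          (not_le.2 h)
      · exact hk
      · refine absurd ?_ (mem_iInter₂.1 hk' i h)
        show p y ∈ p '' O i
        rw [hpy]
        exact hi.2
    obtain ⟨y, hy, hyx⟩ := hi.2
    have hmem : x⁻¹ * y ∈ Γ := QuotientGroup.eq.1 hyx.symm
    have hyR : y ∈ R i := ⟨hy, mem_iInter₂.2 fun j hj => fun (h : p y ∈ p '' O j) => by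
      rw [hyx] at h
      exact not_le.2 hj (hmin j (Finset.mem_filter.2 ⟨Finset.mem_univ j, h⟩))⟩
    refine ⟨⟨x⁻¹ * y, hmem⟩, ?_, fun γ hγ => Subtype.ext ?_⟩
    · show x * (x⁻¹ * y) ∈ _
      rw [mul_inv_cancel_left]
      exact mem_iUnion.2 ⟨i, hyR⟩
    · have h := hOi i (huniq _ hγ (hp x γ)) hy ((hp x γ).trans hyx.symm)
      show (γ : G) = x⁻¹ * y
      rw [← h, inv_mul_cancel_left]

/-- **The quotient σ-algebra is the Borel one.** -/
theorem borelSpace_quotient : BorelSpace (G ⧸ Γ) := by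
  refine ⟨le_antisymm (fun s hs => ?_) ?_⟩
  · obtain ⟨n, O, hOo, -, hOi, hcov⟩ := exists_charts Γ
    let p : G → G ⧸ Γ := QuotientGroup.mk
    have hs' : MeasurableSet (p ⁻¹' s) := hs
    letI : MeasurableSpace (G ⧸ Γ) := borel (G ⧸ Γ)
    haveI : BorelSpace (G ⧸ Γ) := ⟨rfl⟩
    have hemb : ∀ i, MeasurableEmbedding ((O i).domRestrict p) := fun i =>
      (IsOpenEmbedding.of_continuous_injective_isOpenMap
        (continuous_quotient_mk'.comp continuous_subtype_val) (injOn_iff_injective.1 (hOi i))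
        ((QuotientGroup.isOpenMap_coe).comp (hOo i).isOpenMap_subtype_val)).measurableEmbedding
    have e : s = ⋃ i, (O i).domRestrict p '' ((O i).domRestrict p ⁻¹' s) := by
      ext x
      simp only [mem_iUnion, mem_image, mem_preimage]
      refine ⟨fun hx => ?_, fun ⟨i, a, ha, e⟩ => e ▸ ha⟩
      obtain ⟨i, a, ha, rfl⟩ := mem_iUnion.1 (hcov ▸ mem_univ x)
      exact ⟨i, ⟨a, ha⟩, hx, rfl⟩
    show MeasurableSet s
    rw [e]
    exact MeasurableSet.iUnion fun i => (hemb i).measurableSet_image' (measurable_subtype_coe hs')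
  · exact MeasurableSpace.generateFrom_le fun s hs =>
      (hs.preimage continuous_quotient_mk').measurableSet

end FA.CompactQuotient

end
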