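import Mathlib.Topology.Algebra.Group.Quotient
import Mathlib.Topology.Algebra.Order.Floor
import Mathlib.Analysis.Normed.Field.Basic
import Mathlib.Analysis.Normed.Module.Basic
import Mathlib.Analysis.Complex.Basic
import Mathlib.Topology.Order.Compact
import Mathlib.Algebra.Order.Floor.Ring
import Mathlib.Topology.MetricSpace.Bounded

/-!
# The Heisenberg group and its integer lattice

The upper unitriangular `3 × 3` real matrices form a locally compact group in which the integer
points are a countable discrete subgroup with compact quotient.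
-/

set_option autoImplicit false
set_option linter.style.haveILetI false
set_option linter.unusedSectionVars false

noncomputable section

open Topology Set

namespace FA.CompactQuotient

/-- The unitriangular group over a ring, in coordinates. -/
@[ext]
structure Heis (R : Type*) where
  /-- The `(1,2)` entry. -/
  a : R
  /-- The `(2,3)` entry. -/
  b : R
  /-- The `(1,3)` entry. -/
  c : R

namespace Heis

section algebra

variable {R : Type*} [CommRing R]

instance : Mul (Heis R) := ⟨fun x y => ⟨x.a + y.a, x.b + y.b, x.c + y.c + x.a * y.b⟩⟩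
instance : One (Heis R) := ⟨⟨0, 0, 0⟩⟩
instance : Inv (Heis R) := ⟨fun x => ⟨-x.a, -x.b, -x.c + x.a * x.b⟩⟩

theorem mul_def (x y : Heis R) : x * y = ⟨x.a + y.a, x.b + y.b, x.c + y.c + x.a * y.b⟩ := rfl

theorem one_def : (1 : Heis R) = ⟨0, 0, 0⟩ := rfl

theorem inv_def (x : Heis R) : x⁻¹ = ⟨-x.a, -x.b, -x.c + x.a * x.b⟩ := rfl

instance : Group (Heis R) where
  mul_assoc x y z := by ext <;> simp [mul_def] <;> ring
  one_mul x := by ext <;> simp [mul_def, one_def]
  mul_one x := by ext <;> simp [mul_def, one_def]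
  inv_mul_cancel x := by ext <;> simp [mul_def, one_def, inv_def]

/-- The coordinates. -/
def coords : Heis R ≃ R × R × R :=
  { toFun := fun x => (x.a, x.b, x.c)
    invFun := fun p => ⟨p.1, p.2.1, p.2.2⟩
    left_inv := fun _ => rfl
    right_inv := fun _ => rfl }

/-- A ring map gives a homomorphism. -/
def map {S : Type*} [CommRing S] (f : R →+* S) : Heis R →* Heis S where
  toFun x := ⟨f x.a, f x.b, f x.c⟩
  map_one' := by ext <;> simp [one_def]
  map_mul' x y := by ext <;> simp [mul_def]

end algebra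

instance : TopologicalSpace (Heis ℝ) := TopologicalSpace.induced coords inferInstance

/-- The coordinates are a homeomorphism. -/
def coordsHomeo : Heis ℝ ≃ₜ ℝ × ℝ × ℝ := coords.toHomeomorphOfIsInducing ⟨rfl⟩

theorem continuous_a : Continuous fun x : Heis ℝ => x.a := continuous_fst.comp coordsHomeo.continuous

theorem continuous_b : Continuous fun x : Heis ℝ => x.b :=
  continuous_fst.comp (continuous_snd.comp coordsHomeo.continuous)

theorem continuous_c : Continuous fun x : Heis ℝ => x.c :=
  continuous_snd.comp (continuous_snd.comp coordsHomeo.continuous)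

instance : T2Space (Heis ℝ) := coordsHomeo.symm.t2Space

instance : LocallyCompactSpace (Heis ℝ) :=
  coordsHomeo.isClosedEmbedding.locallyCompactSpace

instance : IsTopologicalGroup (Heis ℝ) where
  continuous_mul := continuous_induced_rng.2
    (((continuous_a.comp continuous_fst).add (continuous_a.comp continuous_snd)).prodMk
      (((continuous_b.comp continuous_fst).add (continuous_b.comp continuous_snd)).prodMk
        (((continuous_c.comp continuous_fst).add (continuous_c.comp continuous_snd)).add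
          ((continuous_a.comp continuous_fst).mul (continuous_b.comp continuous_snd)))))
  continuous_inv := continuous_induced_rng.2
    (continuous_a.neg.prodMk (continuous_b.neg.prodMk
      (continuous_c.neg.add (continuous_a.mul continuous_b))))

/-- The group is not commutative. -/
theorem not_commutative : ∃ x y : Heis ℝ, x * y ≠ y * x :=
  ⟨⟨1, 0, 0⟩, ⟨0, 1, 0⟩, fun h => by simpa [mul_def] using congrArg Heis.c h⟩

/-- The group is not compact. -/
theorem not_compact : ¬ CompactSpace (Heis ℝ) := fun h => by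
  have hc : IsCompact (Set.univ : Set ℝ) := by
    have h1 := (isCompact_univ (X := Heis ℝ)).image continuous_a
    rwa [Set.image_univ_of_surjective fun r => ⟨⟨r, 0, 0⟩, rfl⟩] at h1
  exact noncompact_univ ℝ hc

/-- The integer points. -/
def lattice : Subgroup (Heis ℝ) := (map (Int.castRingHom ℝ)).range

theorem mem_lattice (m n k : ℤ) : (⟨m, n, k⟩ : Heis ℝ) ∈ lattice := ⟨⟨m, n, k⟩, rfl⟩

instance : Countable lattice := by
  haveI : Countable (Heis ℤ) := coords.injective.countable
  exact (Set.countable_range (map (Int.castRingHom ℝ))).to_subtype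

instance : DiscreteTopology lattice := by
  refine discreteTopology_of_isOpen_singleton_one (isOpen_induced_iff.2
    ⟨(fun x : Heis ℝ => (x.a, x.b, x.c)) ⁻¹' (Ioo (-1) 1 ×ˢ (Ioo (-1) 1 ×ˢ Ioo (-1) 1)),
      (isOpen_Ioo.prod (isOpen_Ioo.prod isOpen_Ioo)).preimage
        (continuous_a.prodMk (continuous_b.prodMk continuous_c)), ?_⟩)
  ext ⟨x, ⟨⟨m, n, k⟩, rfl⟩⟩
  simp only [mem_preimage, mem_prod, mem_Ioo, mem_singleton_iff, Subtype.ext_iff,
    OneMemClass.coe_one]
  show ((-1 < (m : ℝ) ∧ (m : ℝ) < 1) ∧ (-1 < (n : ℝ) ∧ (n : ℝ) < 1) ∧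
    (-1 < (k : ℝ) ∧ (k : ℝ) < 1)) ↔ (⟨m, n, k⟩ : Heis ℝ) = ⟨0, 0, 0⟩
  have key : ∀ t : ℤ, (-1 < (t : ℝ) ∧ (t : ℝ) < 1) ↔ (t : ℝ) = 0 := fun t => by
    constructor
    · rintro ⟨h1, h2⟩
      have h1' : (-1 : ℤ) < t := by exact_mod_cast h1
      have h2' : t < (1 : ℤ) := by exact_mod_cast h2
      rw [show t = 0 by omega, Int.cast_zero]
    · intro h
      rw [h]
      norm_num
  simp only [key, Heis.mk.injEq]

instance : CompactSpace (Heis ℝ ⧸ lattice) := by
  set K : Set (Heis ℝ) := coordsHomeo ⁻¹' (Icc 0 1 ×ˢ (Icc 0 1 ×ˢ Icc 0 1)) with hK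
  have hKc : IsCompact K := coordsHomeo.isCompact_preimage.2
    (isCompact_Icc.prod (isCompact_Icc.prod isCompact_Icc))
  refine ⟨?_⟩
  rw [show (Set.univ : Set (Heis ℝ ⧸ lattice)) = QuotientGroup.mk '' K from ?_]
  · exact hKc.image continuous_quotient_mk'
  refine (eq_univ_of_forall fun q => ?_).symm
  induction q using QuotientGroup.induction_on with
  | _ x =>
    set n : ℤ := -⌊x.b⌋ with hn
    set γ : Heis ℝ := ⟨((-⌊x.a⌋ : ℤ) : ℝ), (n : ℝ), ((-⌊x.c + x.a * n⌋ : ℤ) : ℝ)⟩ with hγ
    refine ⟨x * γ, ?_, QuotientGroup.mk_mul_of_mem x (mem_lattice _ _ _)⟩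
    have h1 := Int.fract_lt_one x.a
    have h2 := Int.fract_lt_one x.b
    have h3 := Int.fract_lt_one (x.c + x.a * n)
    have h4 := Int.fract_nonneg x.a
    have h5 := Int.fract_nonneg x.b
    have h6 := Int.fract_nonneg (x.c + x.a * n)
    simp only [Int.fract] at h1 h2 h3 h4 h5 h6
    show (x * γ).a ∈ Icc (0 : ℝ) 1 ∧ (x * γ).b ∈ Icc (0 : ℝ) 1 ∧ (x * γ).c ∈ Icc (0 : ℝ) 1
    simp only [mul_def, hγ, hn, Int.cast_neg, mem_Icc] at h3 h6 ⊢
    exact ⟨⟨by linarith, by linarith⟩, ⟨by linarith, by linarith⟩, by linarith, by linarith⟩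

end Heis

end FA.CompactQuotient

end
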