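import Fermat.Agent.CompactQuotient.Domain
import Mathlib.MeasureTheory.Group.ModularCharacter

/-!
# The invariant measure of a compact quotient

Two fundamental domains have the same measure, so a group with a discrete cocompact subgroup is
unimodular, and the image of the Haar measure of a fundamental domain is a finite invariant measure
on the quotient.  A compact set meets only finitely many translates of the domain, so Haar measure on
it projects below a multiple of that measure.
-/

set_option autoImplicit false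
set_option linter.unusedSectionVars false
set_option linter.style.haveILetI false

noncomputable section

open MeasureTheory MeasureTheory.Measure Topology Set
open scoped Pointwise ENNReal NNReal

namespace FA.CompactQuotient

variable {G : Type*} [Group G] [TopologicalSpace G] [IsTopologicalGroup G] [T2Space G]
  [LocallyCompactSpace G] (Γ : Subgroup G) [DiscreteTopology Γ] [CompactSpace (G ⧸ Γ)]
  [MeasurableSpace G] [BorelSpace G]

/-- The quotient σ-algebra is the Borel one. -/
instance instBorelSpaceQuotient : BorelSpace (G ⧸ Γ) := borelSpace_quotient Γ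

/-- A chosen fundamental domain. -/
def domain : Set G := (exists_domain Γ).choose

theorem measurableSet_domain : MeasurableSet (domain Γ) := (exists_domain Γ).choose_spec.1

theorem isCompact_closure_domain : IsCompact (closure (domain Γ)) :=
  (exists_domain Γ).choose_spec.2.1

theorem existsUnique_domain (x : G) : ∃! γ : Γ, x * (γ : G) ∈ domain Γ :=
  (exists_domain Γ).choose_spec.2.2 x

variable [Countable Γ]

include Γ in
theorem sigmaCompactSpace_of_cocompact : SigmaCompactSpace G := by
  obtain ⟨K, hK, hcov⟩ : ∃ K : Γ → Set G, (∀ γ, IsCompact (K γ)) ∧ ⋃ γ, K γ = univ :=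
    ⟨fun γ => (· * (γ : G)) '' closure (domain Γ),
      fun γ => (isCompact_closure_domain Γ).image (continuous_id.mul continuous_const),
      eq_univ_of_forall fun x => by
        obtain ⟨γ, hγ, -⟩ := existsUnique_domain Γ x
        refine mem_iUnion.2 ⟨γ⁻¹, x * γ, subset_closure hγ, ?_⟩
        show x * (γ : G) * ((γ⁻¹ : Γ) : G) = x
        rw [Subgroup.coe_inv, mul_inv_cancel_right]⟩
  exact ⟨isSigmaCompact_univ_iff.1 (by
    rw [← hcov]
    exact isSigmaCompact_iUnion_of_isCompact _ hK) |> fun h => h.isSigmaCompact_univ⟩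

include Γ in
/-- The group is unimodular. -/
theorem isMulRightInvariant_of_cocompact : (haar : Measure G).IsMulRightInvariant := by
  haveI := sigmaCompactSpace_of_cocompact Γ
  refine ⟨fun g => ?_⟩
  set E : Set G := (domain Γ)⁻¹ with hE
  have hEm : MeasurableSet E := (measurableSet_domain Γ).inv
  have hfund : ∀ h : G, IsFundamentalDomain Γ ((· * h) ⁻¹' E) (haar : Measure G) := fun h => by
    refine IsFundamentalDomain.mk' (hEm.preimage (measurable_mul_const h)).nullMeasurableSet
      fun x => ?_
    obtain ⟨γ, hγ, huniq⟩ := existsUnique_domain Γ (x * h)⁻¹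
    refine ⟨γ⁻¹, ?_, fun δ hδ => ?_⟩
    · show ((γ⁻¹ : Γ) : G) * x * h ∈ E
      rw [hE, Set.mem_inv, mul_assoc, mul_inv_rev, Subgroup.coe_inv, inv_inv]
      exact hγ
    · change ((δ : G) * x * h) ∈ E at hδ
      rw [hE, Set.mem_inv, mul_assoc, mul_inv_rev, ← Subgroup.coe_inv] at hδ
      rw [← huniq _ hδ, inv_inv]
  have h1 := (hfund g).measure_eq (hfund 1)
  have hE1 : (fun x : G => x * 1) ⁻¹' E = E := by simp
  rw [hE1] at h1
  have h2 := congrArg (fun m : Measure G => m E)
    (map_right_mul_eq_modularCharacterFun_smul (haar : Measure G) g)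
  simp only [Measure.map_apply (measurable_mul_const g) hEm, h1, Measure.smul_apply] at h2
  have hne : (haar : Measure G) E ≠ 0 := by
    have := (hfund 1).measure_ne_zero (NeZero.ne _)
    rwa [hE1] at this
  have hfin : (haar : Measure G) E ≠ ∞ :=
    ((measure_mono (Set.inv_subset_inv.2 subset_closure)).trans_lt
      (isCompact_closure_domain Γ).inv.measure_lt_top).ne
  have hΔ : modularCharacterFun g = 1 := by
    have h3 : (1 : ℝ≥0∞) * (haar : Measure G) E =
        (modularCharacterFun g : ℝ≥0∞) * (haar : Measure G) E := by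
      rw [one_mul]
      exact h2
    exact_mod_cast ((ENNReal.mul_left_inj hne hfin).1 h3).symm
  rw [map_right_mul_eq_modularCharacterFun_smul, hΔ, one_smul]

/-- The domain for right multiplication by `Γ`. -/
theorem isFundamentalDomain_domain (g : G) :
    IsFundamentalDomain Γ.op ((g * ·) ⁻¹' domain Γ) (haar : Measure G) := by
  refine IsFundamentalDomain.mk'
    ((measurableSet_domain Γ).preimage (measurable_const_mul g)).nullMeasurableSet fun x => ?_
  obtain ⟨γ, hγ, huniq⟩ := existsUnique_domain Γ (g * x)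
  refine ⟨Subgroup.equivOp Γ γ, ?_, fun δ hδ => ?_⟩
  · show g * (x * (γ : G)) ∈ domain Γ
    rwa [← mul_assoc]
  · change g * (x * (((Subgroup.equivOp Γ).symm δ : Γ) : G)) ∈ domain Γ at hδ
    rw [← mul_assoc] at hδ
    rw [← huniq _ hδ, Equiv.apply_symm_apply]

theorem measurable_mk : Measurable (QuotientGroup.mk : G → G ⧸ Γ) := fun _ h => h

theorem continuous_mk : Continuous (QuotientGroup.mk : G → G ⧸ Γ) := continuous_quotient_mk'

/-- The invariant measure of the quotient. -/
def quotMeasure : Measure (G ⧸ Γ) :=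
  Measure.map (QuotientGroup.mk : G → G ⧸ Γ) ((haar : Measure G).restrict (domain Γ))

theorem quotMeasure_apply {A : Set (G ⧸ Γ)} (hA : MeasurableSet A) :
    quotMeasure Γ A =
      (haar : Measure G) ((QuotientGroup.mk : G → G ⧸ Γ) ⁻¹' A ∩ domain Γ) := by
  rw [quotMeasure, Measure.map_apply (measurable_mk Γ) hA,
    Measure.restrict_apply ((measurable_mk Γ) hA)]

instance isFiniteMeasure_quotMeasure : IsFiniteMeasure (quotMeasure Γ) := by
  refine ⟨?_⟩
  rw [quotMeasure_apply Γ MeasurableSet.univ, preimage_univ, univ_inter]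
  exact (measure_mono subset_closure).trans_lt (isCompact_closure_domain Γ).measure_lt_top

instance innerRegular_quotMeasure : (quotMeasure Γ).InnerRegularCompactLTTop :=
  InnerRegularCompactLTTop.map_of_continuous (continuous_mk Γ)

theorem quotMeasure_ne_zero : quotMeasure Γ ≠ 0 := by
  haveI := isMulRightInvariant_of_cocompact Γ
  intro h
  have h0 := quotMeasure_apply Γ MeasurableSet.univ
  rw [h, preimage_univ, univ_inter, Measure.coe_zero, Pi.zero_apply] at h0
  have h1 := isFundamentalDomain_domain Γ (1 : G)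
  rw [show ((1 : G) * ·) ⁻¹' domain Γ = domain Γ by simp] at h1
  exact h1.measure_ne_zero (NeZero.ne _) h0.symm

/-- The measure of the quotient is invariant. -/
instance smulInvariant_quotMeasure : SMulInvariantMeasure G (G ⧸ Γ) (quotMeasure Γ) := by
  haveI := isMulRightInvariant_of_cocompact Γ
  refine ⟨fun g A hA => ?_⟩
  set B := (QuotientGroup.mk : G → G ⧸ Γ) ⁻¹' A with hB
  have hBm : MeasurableSet B := (measurable_mk Γ) hA
  have hAm : MeasurableSet ((g • ·) ⁻¹' A) := (continuous_const_smul g).measurable hA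
  rw [quotMeasure_apply Γ hA, quotMeasure_apply Γ hAm,
    show (QuotientGroup.mk : G → G ⧸ Γ) ⁻¹' ((g • ·) ⁻¹' A) = (g * ·) ⁻¹' B from rfl]
  have e : (g * ·) ⁻¹' B ∩ domain Γ = (g * ·) ⁻¹' (B ∩ (g⁻¹ * ·) ⁻¹' domain Γ) := by
    ext x
    simp [mem_preimage, inv_mul_cancel_left]
  rw [e, measure_preimage_mul]
  have h1 := isFundamentalDomain_domain Γ (1 : G)
  rw [show ((1 : G) * ·) ⁻¹' domain Γ = domain Γ by simp] at h1
  exact (isFundamentalDomain_domain Γ g⁻¹).measure_set_eq h1 hBm fun δ => by
    ext x
    show (QuotientGroup.mk (x * (((Subgroup.equivOp Γ).symm δ : Γ) : G)) : G ⧸ Γ) ∈ A ↔ _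
    rw [QuotientGroup.mk_mul_of_mem x (SetLike.coe_mem _)]
    rfl

/-- **Unfolding bound.** Haar measure on a compact set projects below a multiple of the measure of
the quotient. -/
theorem exists_map_restrict_le {L : Set G} (hL : IsCompact L) :
    ∃ N : ℕ, Measure.map (QuotientGroup.mk : G → G ⧸ Γ) ((haar : Measure G).restrict L) ≤
      (N : ℝ≥0∞) • quotMeasure Γ := by
  haveI := isMulRightInvariant_of_cocompact Γ
  haveI : IsClosed (Γ : Set G) := Subgroup.isClosed_of_discrete
  have hF : {γ : Γ | (γ : G) ∈ (closure (domain Γ))⁻¹ * L}.Finite :=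
    ((IsClosed.isClosedEmbedding_subtypeVal ‹_›).isCompact_preimage
      ((isCompact_closure_domain Γ).inv.mul hL)).finite_of_discrete
  refine ⟨hF.toFinset.card, Measure.le_iff.2 fun A hA => ?_⟩
  rw [Measure.map_apply (measurable_mk Γ) hA,
    Measure.restrict_apply ((measurable_mk Γ) hA), Measure.smul_apply, smul_eq_mul,
    quotMeasure_apply Γ hA]
  set B := (QuotientGroup.mk : G → G ⧸ Γ) ⁻¹' A with hB
  calc (haar : Measure G) (B ∩ L)
      ≤ (haar : Measure G) (⋃ γ ∈ hF.toFinset, (· * ((γ⁻¹ : Γ) : G)) ⁻¹' (B ∩ domain Γ)) := by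
        refine measure_mono fun x ⟨hxB, hxL⟩ => ?_
        obtain ⟨γ, hγ, -⟩ := existsUnique_domain Γ x
        refine mem_iUnion₂.2 ⟨γ⁻¹, hF.mem_toFinset.2 ?_, ?_, ?_⟩
        · exact ⟨(x * γ)⁻¹, Set.inv_mem_inv.2 (subset_closure hγ), x, hxL, by
            simp⟩
        · show (QuotientGroup.mk (x * ((γ⁻¹⁻¹ : Γ) : G)) : G ⧸ Γ) ∈ A
          rw [inv_inv, QuotientGroup.mk_mul_of_mem x γ.2]
          exact hxB
        · show x * ((γ⁻¹⁻¹ : Γ) : G) ∈ domain Γ
          rwa [inv_inv]
    _ ≤ ∑ γ ∈ hF.toFinset, (haar : Measure G) ((· * ((γ⁻¹ : Γ) : G)) ⁻¹' (B ∩ domain Γ)) :=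
        measure_biUnion_finset_le _ _
    _ = _ := by
        simp only [measure_preimage_mul_right, Finset.sum_const, nsmul_eq_mul]

end FA.CompactQuotient

end
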